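import Fermat.Agent.S55.Local.H585.IntCore

/-!
# S55, layer L (helper585): dictionary `IsInt / intUnits / higherUnits` <-> `integralClosure A L`

General setting: `[Algebra A L] [IsScalarTower A F L]` (no completeness needed here).
-/

set_option autoImplicit false
set_option linter.unusedSectionVars false

namespace Fermat.Agent.S55.Local.H585

section Bridge

variable {A F L : Type} [CommRing A] [Field F] [Algebra A F] [Field L] [Algebra F L]
  [Algebra A L] [IsScalarTower A F L]

theorem isInt_iff {x : L} : IsInt A F L x ↔ IsIntegral A x := by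
  unfold IsInt IsIntegral
  rw [show toL A F L = algebraMap A L from (IsScalarTower.algebraMap_eq A F L).symm]

theorem isInt_iff_mem {x : L} : IsInt A F L x ↔ x ∈ integralClosure A L := isInt_iff

theorem isInt_coe (b : integralClosure A L) : IsInt A F L (b : L) := isInt_iff.mpr b.2

variable (A L) in
/-- The inclusion of the units of the ring of integers into `Lˣ`. -/
def unitsIncB : (integralClosure A L)ˣ →* Lˣ :=
  Units.map ((integralClosure A L).val : integralClosure A L →* L)

@[simp] theorem unitsIncB_coe (b : (integralClosure A L)ˣ) :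
    ((unitsIncB A L b : Lˣ) : L) = ((b : integralClosure A L) : L) := rfl

theorem unitsIncB_inv_coe (b : (integralClosure A L)ˣ) :
    (((unitsIncB A L b)⁻¹ : Lˣ) : L) = (((b⁻¹ : (integralClosure A L)ˣ) : integralClosure A L) : L) := by
  rw [← map_inv]; rfl

theorem unitsIncB_injective : Function.Injective (unitsIncB A L) := by
  intro b c h
  apply Units.ext
  apply Subtype.ext
  have := congrArg (fun x : Lˣ => (x : L)) h
  simpa using this

theorem unitsIncB_mem (b : (integralClosure A L)ˣ) : unitsIncB A L b ∈ intUnits A F L := by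
  refine ⟨isInt_coe _, ?_⟩
  rw [unitsIncB_inv_coe]
  exact isInt_coe _

/-- An element of `intUnits` as a unit of the ring of integers. -/
def toUnitsB {x : Lˣ} (hx : x ∈ intUnits A F L) : (integralClosure A L)ˣ where
  val := ⟨(x : L), isInt_iff_mem.mp hx.1⟩
  inv := ⟨((x⁻¹ : Lˣ) : L), isInt_iff_mem.mp hx.2⟩
  val_inv := by apply Subtype.ext; simp
  inv_val := by apply Subtype.ext; simp

@[simp] theorem unitsIncB_toUnitsB {x : Lˣ} (hx : x ∈ intUnits A F L) :
    unitsIncB A L (toUnitsB hx) = x := by
  apply Units.ext; rfl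

theorem mem_intUnits_iff {x : Lˣ} :
    x ∈ intUnits A F L ↔ ∃ b : (integralClosure A L)ˣ, unitsIncB A L b = x :=
  ⟨fun hx => ⟨toUnitsB hx, unitsIncB_toUnitsB hx⟩, fun ⟨b, hb⟩ => hb ▸ unitsIncB_mem b⟩

theorem intUnits_eq_range : intUnits A F L = (unitsIncB A L).range := by
  ext x; rw [mem_intUnits_iff]; rfl

theorem intUnits_eq_map_top : intUnits A F L = (⊤ : Subgroup (integralClosure A L)ˣ).map (unitsIncB A L) := by
  rw [intUnits_eq_range, MonoidHom.range_eq_map]

/-- `x ∈ higherUnits ϖ j` iff `x` is the image of a unit of `B` congruent to `1` modulo `ϖ^j`. -/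
theorem mem_higherUnits_iff (ϖ : integralClosure A L) (j : ℕ) {x : Lˣ} :
    x ∈ higherUnits A F L (ϖ : L) j ↔
      ∃ b : (integralClosure A L)ˣ, unitsIncB A L b = x ∧
        ((b : integralClosure A L) - 1) ∈ Ideal.span {ϖ ^ j} := by
  constructor
  · rintro ⟨hx, c, hc, hxc⟩
    refine ⟨toUnitsB hx, unitsIncB_toUnitsB hx, ?_⟩
    rw [Ideal.mem_span_singleton']
    refine ⟨⟨c, isInt_iff_mem.mp hc⟩, ?_⟩
    apply Subtype.ext
    simp only [toUnitsB]
    push_cast
    rw [hxc]; ring
  · rintro ⟨b, rfl, hb⟩
    refine ⟨unitsIncB_mem b, ?_⟩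
    rw [Ideal.mem_span_singleton'] at hb
    obtain ⟨c, hc⟩ := hb
    refine ⟨(c : L), isInt_coe c, ?_⟩
    have := congrArg (fun y : integralClosure A L => (y : L)) hc
    push_cast at this
    rw [unitsIncB_coe]
    linear_combination -this

theorem higherUnits_eq_map (ϖ : integralClosure A L) (j : ℕ) :
    higherUnits A F L (ϖ : L) j =
      (Units.map ((Ideal.Quotient.mk (Ideal.span {ϖ ^ j})) :
        integralClosure A L →* (integralClosure A L ⧸ Ideal.span {ϖ ^ j}))).ker.map
        (unitsIncB A L) := by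
  ext x
  rw [mem_higherUnits_iff, Subgroup.mem_map]
  constructor
  · rintro ⟨b, hb, hmem⟩
    refine ⟨b, ?_, hb⟩
    rw [MonoidHom.mem_ker]
    apply Units.ext
    simp only [Units.coe_map, MonoidHom.coe_coe, Units.val_one]
    rw [← map_one (Ideal.Quotient.mk (Ideal.span {ϖ ^ j})), Ideal.Quotient.eq]
    exact hmem
  · rintro ⟨b, hb, hbx⟩
    refine ⟨b, hbx, ?_⟩
    rw [MonoidHom.mem_ker] at hb
    have := congrArg (fun y : (integralClosure A L ⧸ Ideal.span {ϖ ^ j})ˣ =>
      (y : integralClosure A L ⧸ Ideal.span {ϖ ^ j})) hb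
    simp only [Units.coe_map, MonoidHom.coe_coe, Units.val_one] at this
    rw [← map_one (Ideal.Quotient.mk (Ideal.span {ϖ ^ j})), Ideal.Quotient.eq] at this
    exact this

end Bridge

end Fermat.Agent.S55.Local.H585
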