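import Fermat.Agent.S55.Local.Spec
import Fermat.Agent.S55.Local.H585.IntBridge

/-!
# S55, layer L, piece LF5 (helper585): completeness and separatedness of the unit group
-/

set_option autoImplicit false
set_option linter.unusedSectionVars false

namespace Fermat.Agent.S55.Local.H585

open IsLocalRing

section

variable (A F : Type) [CommRing A] [IsDomain A] [IsDiscreteValuationRing A]
    [IsAdicComplete (IsLocalRing.maximalIdeal A) A]
    [Field F] [CharZero F] [Algebra A F] [IsFractionRing A F]
    (L : Type) [Field L] [Algebra F L] [FiniteDimensional F L]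
    [Algebra A L] [IsScalarTower A F L]

include F in
/-- A non-unit of the ring of integers: an integral element whose inverse is not integral. -/
theorem not_isUnit_of_not_isInt_inv (ϖ : integralClosure A L)
    (hinv : ¬ IsInt A F L ((ϖ : L))⁻¹) : ¬ IsUnit ϖ := by
  rintro ⟨b, hb⟩
  apply hinv
  have h := unitsIncB_mem (F := F) b
  have h2 := h.2
  rw [show (((unitsIncB A L b)⁻¹ : Lˣ) : L) = ((unitsIncB A L b : Lˣ) : L)⁻¹ by simp,
    unitsIncB_coe, hb] at h2
  exact h2

include F in
/-- Separatedness. -/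
theorem eq_one_of_forall_mem_higherUnits (ϖ : L) (hϖ : IsInt A F L ϖ)
    (hinv : ¬ IsInt A F L ϖ⁻¹) (x : Lˣ) (hx : ∀ j, x ∈ higherUnits A F L ϖ j) : x = 1 := by
  set ϖB : integralClosure A L := ⟨ϖ, isInt_iff_mem.mp hϖ⟩ with hϖB
  have hDed := isDedekindDomain_int A F L
  have hnu : ¬ IsUnit ϖB := not_isUnit_of_not_isInt_inv A F L ϖB hinv
  have htop : Ideal.span {ϖB} ≠ ⊤ := by
    rwa [Ne, Ideal.span_singleton_eq_top]
  have hbot := Ideal.iInf_pow_eq_bot_of_isDomain (Ideal.span {ϖB}) htop
  obtain ⟨b, hb, -⟩ := (mem_higherUnits_iff (F := F) ϖB 0).mp (hx 0)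
  have hmem : ((b : integralClosure A L) - 1) ∈ (⨅ i : ℕ, Ideal.span {ϖB} ^ i) := by
    rw [Ideal.mem_iInf]
    intro j
    obtain ⟨c, hc, hcj⟩ := (mem_higherUnits_iff (F := F) ϖB j).mp (hx j)
    have hbc : b = c := unitsIncB_injective (hb.trans hc.symm)
    rw [hbc, Ideal.span_singleton_pow]
    exact hcj
  rw [hbot, Ideal.mem_bot, sub_eq_zero] at hmem
  rw [← hb]
  apply Units.ext
  rw [unitsIncB_coe, hmem]
  simp

include F in
/-- Completeness. -/
theorem exists_limit_higherUnits (ϖ : L) (hϖ : IsInt A F L ϖ) (h0 : ϖ ≠ 0)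
    (hinv : ¬ IsInt A F L ϖ⁻¹) (u : ℕ → Lˣ) (hu : ∀ j, u j ∈ higherUnits A F L ϖ j) :
    ∃ s : Lˣ, ∀ n, s / ∏ j ∈ Finset.range n, u j ∈ higherUnits A F L ϖ n := by
  set ϖB : integralClosure A L := ⟨ϖ, isInt_iff_mem.mp hϖ⟩ with hϖB
  have hϖB0 : ϖB ≠ 0 := fun h => h0 (congrArg Subtype.val h)
  have hloc := isLocalRing_int A F L
  have hDVR := isDVR_int A F L
  have hcompl := isAdicComplete_int A F L
  have hnu : ¬ IsUnit ϖB := not_isUnit_of_not_isInt_inv A F L ϖB hinv
  have hϖm : ϖB ∈ maximalIdeal (integralClosure A L) := (IsLocalRing.mem_maximalIdeal _).mpr hnu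
  -- units of `B` lifting the `u j`
  choose v hv hvmem using fun j => (mem_higherUnits_iff (F := F) ϖB j).mp (hu j)
  -- partial products
  let p : ℕ → (integralClosure A L)ˣ := fun n => ∏ j ∈ Finset.range n, v j
  have hp : ∀ n, unitsIncB A L (p n) = ∏ j ∈ Finset.range n, u j := by
    intro n
    simp only [p, map_prod, hv]
  have hstep : ∀ n, ((p (n + 1) : integralClosure A L) - p n) ∈ Ideal.span {ϖB ^ n} := by
    intro n
    have : ((p (n + 1) : integralClosure A L) - p n) = (p n : integralClosure A L) * ((v n : integralClosure A L) - 1) := by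
      simp only [p, Finset.prod_range_succ, Units.val_mul]
      ring
    rw [this]
    exact Ideal.mul_mem_left _ _ (hvmem n)
  have hmono : ∀ {m n : ℕ}, m ≤ n → Ideal.span {ϖB ^ n} ≤ Ideal.span {ϖB ^ m} := by
    intro m n hmn
    rw [Ideal.span_singleton_le_span_singleton]
    exact pow_dvd_pow _ hmn
  have htel : ∀ n k, ((p (n + k) : integralClosure A L) - p n) ∈ Ideal.span {ϖB ^ n} := by
    intro n k
    induction k with
    | zero => simp
    | succ k ih =>
      have h1 := hmono (Nat.le_add_right n k) (hstep (n + k))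
      have : ((p (n + (k + 1)) : integralClosure A L) - p n) =
          ((p (n + k + 1) : integralClosure A L) - p (n + k)) + ((p (n + k) : integralClosure A L) - p n) := by
        rw [← add_assoc]; ring
      rw [this]
      exact Ideal.add_mem _ h1 ih
  have hle : ∀ n, Ideal.span {ϖB ^ n} ≤ maximalIdeal (integralClosure A L) ^ n := by
    intro n
    rw [Ideal.span_singleton_le_iff_mem]
    exact Ideal.pow_mem_pow hϖm n
  -- the limit
  obtain ⟨s, hs⟩ := IsPrecomplete.prec hcompl.toIsPrecomplete
    (f := fun n => (p n : integralClosure A L)) (by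
      intro m n hmn
      obtain ⟨k, rfl⟩ := Nat.exists_eq_add_of_le hmn
      rw [SModEq.sub_mem, smul_eq_mul, Ideal.mul_top]
      have := hle m (htel m k)
      rw [← neg_sub]
      exact neg_mem this)
  have hs' : ∀ n, (s - p n) ∈ maximalIdeal (integralClosure A L) ^ n := by
    intro n
    have := hs n
    rw [SModEq.sub_mem, smul_eq_mul, Ideal.mul_top] at this
    rw [← neg_sub]
    exact neg_mem this
  -- `s` is a unit
  have hsu : IsUnit s := by
    by_contra hns
    have hsm : s ∈ maximalIdeal (integralClosure A L) := (IsLocalRing.mem_maximalIdeal _).mpr hns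
    have h1 := hs' 1
    rw [pow_one] at h1
    have : ((p 1 : (integralClosure A L)ˣ) : integralClosure A L) ∈ maximalIdeal (integralClosure A L) := by
      have h2 := Ideal.sub_mem _ hsm h1
      rwa [sub_sub_cancel] at h2
    exact (IsLocalRing.mem_maximalIdeal _).mp this (p 1).isUnit
  -- `(ϖ) = m ^ a`
  obtain ⟨a, ha⟩ := exists_eq_maximalIdeal_pow A F L (Ideal.span {ϖB}) (by
    rwa [Ne, Ideal.span_singleton_eq_bot])
  have hcong : ∀ n, (s - p n) ∈ Ideal.span {ϖB ^ n} := by
    intro n
    have h1 : (s - p (n + a * n)) ∈ Ideal.span {ϖB ^ n} := by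
      rw [← Ideal.span_singleton_pow, ha, ← pow_mul]
      exact Ideal.pow_le_pow_right (Nat.le_add_left _ _) (hs' (n + a * n))
    have h2 := htel n (a * n)
    have : s - p n = (s - p (n + a * n)) + ((p (n + a * n) : integralClosure A L) - p n) := by ring
    rw [this]
    exact Ideal.add_mem _ h1 h2
  refine ⟨unitsIncB A L hsu.unit, fun n => ?_⟩
  rw [← hp n, ← map_div]
  rw [mem_higherUnits_iff (F := F) ϖB n]
  refine ⟨hsu.unit / p n, rfl, ?_⟩
  have : (((hsu.unit / p n : (integralClosure A L)ˣ) : integralClosure A L) - 1) =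
      (s - p n) * ((p n)⁻¹ : (integralClosure A L)ˣ) := by
    rw [div_eq_mul_inv, Units.val_mul, IsUnit.unit_spec, sub_mul, Units.mul_inv]
  rw [this]
  exact Ideal.mul_mem_right _ _ (hcong n)

end

/-- (LF5) completeness and separatedness of the unit group. -/
theorem unitsComplete : UnitsCompleteStatement := by
  intro A F _ _ _ _ _ _ _ _ _ L _ _ _ ϖ hϖ h0 hinv
  let _ : Algebra A L := (toL A F L).toAlgebra
  have : IsScalarTower A F L := IsScalarTower.of_algebraMap_eq (fun _ => rfl)
  exact ⟨fun u hu => exists_limit_higherUnits A F L ϖ hϖ h0 hinv u hu,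
    fun x hx => eq_one_of_forall_mem_higherUnits A F L ϖ hϖ hinv x hx⟩

end Fermat.Agent.S55.Local.H585
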