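import Fermat.Agent.S55.Local.Spec
import Fermat.Agent.S55.Local.H585.IntBridge

/-!
# S55, layer L, piece LF6 (helper585): higher unit groups have finite index
-/

set_option autoImplicit false
set_option linter.unusedSectionVars false

namespace Fermat.Agent.S55.Local.H585

open IsLocalRing

section

variable (A F : Type) [CommRing A] [IsDomain A] [IsDiscreteValuationRing A]
    [IsAdicComplete (IsLocalRing.maximalIdeal A) A] [Finite (IsLocalRing.ResidueField A)]
    [Field F] [CharZero F] [Algebra A F] [IsFractionRing A F]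
    (L : Type) [Field L] [Algebra F L] [FiniteDimensional F L]
    [Algebra A L] [IsScalarTower A F L]

theorem relIndex_higherUnits_ne_zero (ϖ : L) (hϖ : IsInt A F L ϖ) (h0 : ϖ ≠ 0) (j : ℕ) :
    (higherUnits A F L ϖ j).relIndex (intUnits A F L) ≠ 0 := by
  set ϖB : integralClosure A L := ⟨ϖ, isInt_iff_mem.mp hϖ⟩ with hϖB
  have hϖB0 : ϖB ≠ 0 := fun h => h0 (congrArg Subtype.val h)
  have hfin : Finite (integralClosure A L ⧸ Ideal.span {ϖB ^ j}) := by
    apply finite_quotient_int A F L
    rw [Ne, Ideal.span_singleton_eq_bot]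
    exact pow_ne_zero _ hϖB0
  have h1 : higherUnits A F L ϖ j = _ := higherUnits_eq_map (F := F) ϖB j
  rw [h1, intUnits_eq_map_top, Subgroup.relIndex_map_map_of_injective _ _ unitsIncB_injective,
    Subgroup.relIndex_top_right, Subgroup.index_ker]
  exact Nat.card_pos.ne'

end

/-- (LF6) higher unit groups have finite index in the unit group. -/
theorem higherUnitsFiniteIndex : HigherUnitsFiniteIndexStatement := by
  intro A F _ _ _ _ _ _ _ _ _ L _ _ _ ϖ hϖ h0 j
  let _ : Algebra A L := (toL A F L).toAlgebra
  have : IsScalarTower A F L := IsScalarTower.of_algebraMap_eq (fun _ => rfl)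
  exact relIndex_higherUnits_ne_zero A F L ϖ hϖ h0 j

end Fermat.Agent.S55.Local.H585
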