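import Fermat.Agent.S55.Local.Defs
import Fermat.Prelude.Thm_Algebra_finite_maximalSpectrum_and_bijective_localization_of_module_finite
import Fermat.Prelude.Thm_IsAdicComplete_of_module_finite
import Fermat.Prelude.Thm_IsLocalRing_isAdicComplete_of_module_finite

/-!
# S55, layer L, piece LF0 (helper585): the ring of integers of a local field

`A` complete DVR, `F = Frac A` of characteristic zero, `L / F` finite.  With an `A`-algebra
structure on `L` compatible with `F` (`[Algebra A L] [IsScalarTower A F L]`),
`B := integralClosure A L` is a finite `A`-module, a Dedekind domain, local, hence a DVR, and it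
is complete for the `m_A`-adic topology.
-/

set_option autoImplicit false
set_option linter.unusedSectionVars false

namespace Fermat.Agent.S55.Local.H585

open IsLocalRing

section Core

variable (A F : Type) [CommRing A] [IsDomain A] [IsDiscreteValuationRing A]
    [IsAdicComplete (IsLocalRing.maximalIdeal A) A]
    [Field F] [CharZero F] [Algebra A F] [IsFractionRing A F]
    (L : Type) [Field L] [Algebra F L] [FiniteDimensional F L]
    [Algebra A L] [IsScalarTower A F L]

include F in
theorem isFractionRing_int : IsFractionRing (integralClosure A L) L :=
  integralClosure.isFractionRing_of_finite_extension F L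

include F in
theorem isDedekindDomain_int : IsDedekindDomain (integralClosure A L) :=
  integralClosure.isDedekindDomain A F L

include F in
theorem moduleFinite_int : Module.Finite A (integralClosure A L) :=
  IsIntegralClosure.finite A F L (integralClosure A L)

/-- A domain which is a finite algebra over a complete noetherian local ring is local. -/
theorem isLocalRing_of_finite_of_isDomain (𝒪 : Type) [CommRing 𝒪] [IsLocalRing 𝒪]
    [IsNoetherianRing 𝒪] [IsAdicComplete (IsLocalRing.maximalIdeal 𝒪) 𝒪]
    (B : Type) [CommRing B] [IsDomain B] [Algebra 𝒪 B] [Module.Finite 𝒪 B] : IsLocalRing B := by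
  classical
  obtain ⟨-, hbij, -, -⟩ :=
    Algebra.finite_maximalSpectrum_and_bijective_localization_of_module_finite (𝒪 := 𝒪) B
  have hsub : Subsingleton (MaximalSpectrum B) := by
    refine ⟨fun I J => ?_⟩
    by_contra hIJ
    obtain ⟨b, hb⟩ := hbij.2 (Pi.single I 1)
    obtain ⟨b', hb'⟩ := hbij.2 (Pi.single J 1)
    have hzero : b * b' = 0 := by
      apply hbij.1
      rw [map_mul, hb, hb', map_zero]
      funext K
      by_cases hK : K = I
      · subst hK
        simp [Pi.single_eq_of_ne hIJ]
      · simp [Pi.single_eq_of_ne hK]
    rcases mul_eq_zero.mp hzero with h | h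
    · have := congrFun hb I
      rw [h, map_zero] at this
      simp at this
    · have := congrFun hb' J
      rw [h, map_zero] at this
      simp at this
  obtain ⟨m, hm⟩ := Ideal.exists_maximal B
  refine IsLocalRing.of_unique_max_ideal ⟨m, hm, fun J hJ => ?_⟩
  have := hsub.elim ⟨J, hJ⟩ ⟨m, hm⟩
  exact congrArg MaximalSpectrum.asIdeal this

include F in
theorem isLocalRing_int : IsLocalRing (integralClosure A L) :=
  haveI := moduleFinite_int A F L
  isLocalRing_of_finite_of_isDomain A (integralClosure A L)

include F in
theorem algebraMap_int_injective :
    Function.Injective (algebraMap A (integralClosure A L)) := by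
  intro x y h
  have h' := congrArg (algebraMap (integralClosure A L) L) h
  rw [← IsScalarTower.algebraMap_apply, ← IsScalarTower.algebraMap_apply,
    IsScalarTower.algebraMap_apply A F L, IsScalarTower.algebraMap_apply A F L] at h'
  exact IsFractionRing.injective A F ((algebraMap F L).injective h')

include F in
theorem not_isField_int : ¬ IsField (integralClosure A L) := fun h =>
  IsDiscreteValuationRing.not_isField A
    (isField_of_isIntegral_of_isField (algebraMap_int_injective A F L) h)

include F in
theorem isDVR_int : IsDiscreteValuationRing (integralClosure A L) := by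
  have := isLocalRing_int A F L
  have hD := isDedekindDomain_int A F L
  exact ((IsDiscreteValuationRing.TFAE (integralClosure A L) (not_isField_int A F L)).out 0 2).mpr
    hD

include F in
theorem isAdicComplete_int :
    haveI := isLocalRing_int A F L
    IsAdicComplete (IsLocalRing.maximalIdeal (integralClosure A L)) (integralClosure A L) := by
  have := isLocalRing_int A F L
  have := moduleFinite_int A F L
  have : FaithfulSMul A (integralClosure A L) :=
    (faithfulSMul_iff_algebraMap_injective A _).mpr (algebraMap_int_injective A F L)
  exact IsLocalRing.isAdicComplete_of_module_finite (𝒪 := A) (T := integralClosure A L)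

include F in
theorem finite_residueField_int [Finite (ResidueField A)] :
    haveI := isLocalRing_int A F L
    Finite (ResidueField (integralClosure A L)) := by
  have := isLocalRing_int A F L
  have := moduleFinite_int A F L
  have : FaithfulSMul A (integralClosure A L) :=
    (faithfulSMul_iff_algebraMap_injective A _).mpr (algebraMap_int_injective A F L)
  exact Module.finite_of_finite (ResidueField A)

include F in
/-- Every nonzero ideal of the ring of integers is a power of the maximal ideal. -/
theorem exists_eq_maximalIdeal_pow (I : Ideal (integralClosure A L)) (hI : I ≠ ⊥) :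
    haveI := isLocalRing_int A F L
    ∃ k : ℕ, I = IsLocalRing.maximalIdeal (integralClosure A L) ^ k := by
  have := isLocalRing_int A F L
  have := isDVR_int A F L
  obtain ⟨π, hπ⟩ := IsDiscreteValuationRing.exists_irreducible (integralClosure A L)
  obtain ⟨k, hk⟩ := IsDiscreteValuationRing.ideal_eq_span_pow_irreducible hI hπ
  refine ⟨k, ?_⟩
  rw [hk, (IsDiscreteValuationRing.irreducible_iff_uniformizer π).mp hπ, Ideal.span_singleton_pow]

include F in
theorem finite_quotient_int [Finite (ResidueField A)] (I : Ideal (integralClosure A L))
    (hI : I ≠ ⊥) : Finite (integralClosure A L ⧸ I) := by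
  have := isLocalRing_int A F L
  have := isDVR_int A F L
  obtain ⟨k, hk⟩ := exists_eq_maximalIdeal_pow A F L I hI
  rw [hk]
  have : Finite (integralClosure A L ⧸ IsLocalRing.maximalIdeal (integralClosure A L)) :=
    finite_residueField_int A F L
  exact Ideal.finite_quotient_pow (IsNoetherian.noetherian _) k

end Core

end Fermat.Agent.S55.Local.H585
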